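/-
S12 programme, brick 757/9a (M2) (helper51): transport of a point of a Weierstrass curve `V'` over
`ℚbar` to the `u`-scaled integral model `W'` (`aᵢ(W') = uⁱ aᵢ(V')`): `(x, y) ↦ (u² x, u³ y)`.
The image has the same order, and it is Galois-fixed if `u`, `x`, `y` are.
-/
import Mathlib
import Fermat.Prelude.Def_FLTPrelim_GaloisRep
import Fermat.Agent.S05.Transport

set_option autoImplicit false

open WeierstrassCurve WeierstrassCurve.Affine

noncomputable section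

namespace Fermat.Agent.S12P.Top51

open Fermat.Agent.S05.Transport

local notation "Qb" => AlgebraicClosure ℚ

variable {V' : WeierstrassCurve Qb} (W' : WeierstrassCurve ℤ) {u : Qb} (hu0 : u ≠ 0)
  (h₁ : ((W'.a₁ : ℤ) : Qb) = u * V'.a₁)
  (h₂ : ((W'.a₂ : ℤ) : Qb) = u ^ 2 * V'.a₂)
  (h₃ : ((W'.a₃ : ℤ) : Qb) = u ^ 3 * V'.a₃)
  (h₄ : ((W'.a₄ : ℤ) : Qb) = u ^ 4 * V'.a₄)
  (h₆ : ((W'.a₆ : ℤ) : Qb) = u ^ 6 * V'.a₆)

/-- The scaling change of variables `⟨u⁻¹, 0, 0, 0⟩`. -/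
def scaleVC (hu0 : u ≠ 0) : VariableChange Qb := ⟨(Units.mk0 u hu0)⁻¹, 0, 0, 0⟩

include h₁ h₂ h₃ h₄ h₆ in
/-- The base change of the integral model is the `u`-scaling of `V'`. -/
theorem baseChange_eq_scale :
    (W'.map (Int.castRingHom ℚ)).baseChange Qb = scaleVC hu0 • V' := by
  have hc : ∀ n : ℤ, algebraMap ℚ Qb ((Int.castRingHom ℚ) n) = ((n : ℤ) : Qb) := by
    intro n; simp
  ext
  · show algebraMap ℚ Qb ((Int.castRingHom ℚ) W'.a₁) = _
    rw [hc, h₁, variableChange_a₁]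
    simp [scaleVC]
  · show algebraMap ℚ Qb ((Int.castRingHom ℚ) W'.a₂) = _
    rw [hc, h₂, variableChange_a₂]
    simp [scaleVC]
  · show algebraMap ℚ Qb ((Int.castRingHom ℚ) W'.a₃) = _
    rw [hc, h₃, variableChange_a₃]
    simp [scaleVC]
  · show algebraMap ℚ Qb ((Int.castRingHom ℚ) W'.a₄) = _
    rw [hc, h₄, variableChange_a₄]
    simp [scaleVC]
  · show algebraMap ℚ Qb ((Int.castRingHom ℚ) W'.a₆) = _
    rw [hc, h₆, variableChange_a₆]
    simp [scaleVC]

include hu0 h₁ h₂ h₃ h₄ h₆ in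
/-- **(M2)** the scaled point: nonsingular on the integral model, same order, Galois-fixed. -/
theorem exists_scaled_point {x y : Qb} (hns : V'.toAffine.Nonsingular x y) :
    ∃ hns' : ((W'.map (Int.castRingHom ℚ))⁄Qb).Nonsingular (u ^ 2 * x) (u ^ 3 * y),
      addOrderOf (Affine.Point.some _ _ hns') = addOrderOf (Affine.Point.some _ _ hns) ∧
      ((∀ σ : Qb ≃ₐ[ℚ] Qb, σ u = u) → (∀ σ : Qb ≃ₐ[ℚ] Qb, σ x = x) →
        (∀ σ : Qb ≃ₐ[ℚ] Qb, σ y = y) →
        ∀ σ : Qb ≃ₐ[ℚ] Qb, σ • (Affine.Point.some _ _ hns' :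
          ((W'.map (Int.castRingHom ℚ))⁄Qb).Point) = Affine.Point.some _ _ hns') := by
  have hE := baseChange_eq_scale W' hu0 h₁ h₂ h₃ h₄ h₆
  have hX : vcX (scaleVC hu0) (u ^ 2 * x) = x := by
    simp only [vcX, scaleVC, Units.val_inv_eq_inv_val, Units.val_mk0]
    field_simp
    ring
  have hY : vcY (scaleVC hu0) (u ^ 2 * x) (u ^ 3 * y) = y := by
    simp only [vcY, scaleVC, Units.val_inv_eq_inv_val, Units.val_mk0]
    field_simp
    ring
  have hns' : ((W'.map (Int.castRingHom ℚ))⁄Qb).Nonsingular (u ^ 2 * x) (u ^ 3 * y) := by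
    rw [← nonsingular_iff_vc hE, hX, hY]
    exact hns
  refine ⟨hns', ?_, ?_⟩
  · have himg : Fermat.Agent.S05.Transport.pointEquiv hE (Affine.Point.some _ _ hns') = Affine.Point.some _ _ hns := by
      rw [Fermat.Agent.S05.Transport.pointEquiv_some]
      congr 1
    rw [← himg]
    exact (addOrderOf_injective (Fermat.Agent.S05.Transport.pointEquiv hE).toAddMonoidHom
      (Fermat.Agent.S05.Transport.pointEquiv hE).injective _).symm
  · intro hσu hσx hσy σ
    rw [WeierstrassCurve.Affine.Point.algEquiv_smul_def, Affine.Point.map_some]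
    congr 1
    · show σ (u ^ 2 * x) = u ^ 2 * x
      rw [map_mul, map_pow, hσu, hσx]
    · show σ (u ^ 3 * y) = u ^ 3 * y
      rw [map_mul, map_pow, hσu, hσy]

end Fermat.Agent.S12P.Top51
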