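/-
S12 programme, TOP (helper51): **S15 ⟹ S12.**

`toricLine_of_S15` : given the frozen statement of S15 (as the hypothesis `S15Statement`), the Velu
point statement `VeluPoints P` and `17 ≤ p`, every Galois-stable cofixed line `N` of the Frey curve
is toric (`KAsm28.ToricLine P N`).  Hence (`KAsm28.false_of_toricLine`) no such line exists:
`not_cofixed_of_S15`, and with `veluPoints` (= `VeluQ51.velu_Q_points`): `s12_of_s15`.

Suppliers: `Rat68` (generator of the line), `KAsm28.FreyModel` (scaled integral model of Velu's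
quotient), `Top51.ScaledPoint` (the image point on the model), `VeluDef61.Galois` (rationality of the
image point), `VeluQ51.Delta` (discriminant of the quotient), `Toric44.Assembly` (the abstract
argument).
-/
import Mathlib
import Fermat.Prelude.Def_FLTPrelim_CofixedLine
import Fermat.Agent.S12P.KAsm28.Top
import Fermat.Agent.S12P.KAsm28.FreyModel
import Fermat.Agent.S12P.Toric44.Assembly
import Fermat.Agent.S12P.Rat68.Frey
import Fermat.Agent.S12P.VeluQ51.Delta
import Fermat.Agent.S12P.VeluQ51.Points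
import Fermat.Agent.S12P.VeluDef61.Galois
import Fermat.Agent.S12P.Top51.ScaledPoint
import Fermat.Agent.S13.Supersingular

set_option autoImplicit false
set_option linter.unusedSectionVars false

open WeierstrassCurve WeierstrassCurve.Affine WeierstrassCurve.Affine.Point

noncomputable section

namespace Fermat.Agent.S12P.Top51

open Fermat.Agent.MAZ.Loc44 (InZero)
open Fermat.Agent.S12P.VeluDef51
open Fermat.Agent.S12P.Toric44 (S15Statement)

local notation "Qb" => AlgebraicClosure ℚ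

/-- The Velu point statement for the Frey curve: for `Q` of order `p` and a `p`-torsion point `R`
outside `⟨Q⟩`, `(veluX R, veluY R)` is a nonsingular point of order `p` of Velu's quotient. -/
def VeluPoints (P : FreyPackage) : Prop :=
  ∀ Q R : (P.freyCurve⁄Qb).Point, addOrderOf Q = P.p → P.p • R = 0 →
    R ∉ AddSubgroup.zmultiples Q →
    ∃ hns : (veluCurve (P.freyCurve.baseChange Qb) Q P.p).toAffine.Nonsingular
        (veluX (P.freyCurve.baseChange Qb) Q P.p R) (veluY (P.freyCurve.baseChange Qb) Q P.p R),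
      addOrderOf (Affine.Point.some _ _ hns) = P.p

variable (P : FreyPackage)

/-- the image point on the scaled model: nonsingular, of order `p`, Galois-fixed. -/
theorem frey_image_point {t : (P.freyCurve⁄Qb).Point} (ht : P.p • t = 0) (ht0 : t ≠ 0)
    (hstab : ∀ σ : Qb ≃ₐ[ℚ] Qb, σ • t ∈ AddSubgroup.zmultiples t)
    {k : ℕ} {W' : WeierstrassCurve ℤ}
    (hW' : Fermat.Agent.S12P.Model57.IsScaledModel W'
      (veluCurve (P.freyCurve.baseChange Qb) t P.p) ((P.p : Qb) ^ k))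
    {R : (P.freyCurve⁄Qb).Point}
    (hcof : ∀ σ : Qb ≃ₐ[ℚ] Qb, σ • R - R ∈ AddSubgroup.zmultiples t)
    (hns : (veluCurve (P.freyCurve.baseChange Qb) t P.p).toAffine.Nonsingular
      (veluX (P.freyCurve.baseChange Qb) t P.p R) (veluY (P.freyCurve.baseChange Qb) t P.p R))
    (hord : addOrderOf (Affine.Point.some _ _ hns) = P.p) :
    ∃ hns' : ((W'.map (Int.castRingHom ℚ))⁄Qb).Nonsingular
        (((P.p : Qb) ^ k) ^ 2 * veluX (P.freyCurve.baseChange Qb) t P.p R)
        (((P.p : Qb) ^ k) ^ 3 * veluY (P.freyCurve.baseChange Qb) t P.p R),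
      addOrderOf (Affine.Point.some _ _ hns') = P.p ∧
        ∀ σ : Qb ≃ₐ[ℚ] Qb, σ • (Affine.Point.some _ _ hns' :
          ((W'.map (Int.castRingHom ℚ))⁄Qb).Point) = Affine.Point.some _ _ hns' := by
  obtain ⟨hns', ho, hfix⟩ := exists_scaled_point W' (Fermat.Agent.S12P.KAsm28.p_pow_ne_zero P k)
    hW'.h₁ hW'.h₂ hW'.h₃ hW'.h₄ hW'.h₆ hns
  refine ⟨hns', ho.trans hord, hfix (fun σ => ?_) (fun σ => ?_) (fun σ => ?_)⟩
  · rw [map_pow, map_natCast]
  · exact Fermat.Agent.S12P.VeluDef61.galois_veluX (W₀ := P.freyCurve) σ P.pp ht ht0 (hstab σ)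
      (hcof σ)
  · exact Fermat.Agent.S12P.VeluDef61.galois_veluY (W₀ := P.freyCurve) σ P.pp ht ht0 (hstab σ)
      (hcof σ)

/-- **TORIC** for a line with a generator. -/
theorem toricLine_of_S15 (hS15 : S15Statement) (hpts : VeluPoints P) (hp17 : 17 ≤ P.p)
    (N : Submodule (ZMod P.p) (Submodule.torsionBy ℤ (P.freyCurve⁄Qb).Point P.p))
    (htop : N ≠ ⊤)
    (t : Submodule.torsionBy ℤ (P.freyCurve⁄Qb).Point P.p) (htN : t ∈ N)
    (ht0 : (t : (P.freyCurve⁄Qb).Point) ≠ 0)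
    (htp : P.p • (t : (P.freyCurve⁄Qb).Point) = 0)
    (hord : addOrderOf (t : (P.freyCurve⁄Qb).Point) = P.p)
    (hstab : ∀ σ : Qb ≃ₐ[ℚ] Qb, σ • (t : (P.freyCurve⁄Qb).Point) ∈
      AddSubgroup.zmultiples (t : (P.freyCurve⁄Qb).Point))
    (hmult : ∀ x ∈ N, ∃ j : ℕ, (x : (P.freyCurve⁄Qb).Point) = j • (t : (P.freyCurve⁄Qb).Point))
    (hcof : ∀ σ : Qb ≃ₐ[ℚ] Qb, ∀ x : Submodule.torsionBy ℤ (P.freyCurve⁄Qb).Point P.p,
      σ • x - x ∈ N) :
    Fermat.Agent.S12P.KAsm28.ToricLine P N := by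
  classical
  obtain ⟨m, hpm⟩ := P.hp_odd
  -- membership in `⟨t⟩` from membership in `N`
  have hNt : ∀ x ∈ N, (x : (P.freyCurve⁄Qb).Point) ∈
      AddSubgroup.zmultiples (t : (P.freyCurve⁄Qb).Point) := by
    intro x hx
    obtain ⟨j, hj⟩ := hmult x hx
    rw [hj]
    exact AddSubgroup.nsmul_mem_zmultiples _ j
  -- and conversely
  have htN' : ∀ x : Submodule.torsionBy ℤ (P.freyCurve⁄Qb).Point P.p,
      (x : (P.freyCurve⁄Qb).Point) ∈ AddSubgroup.zmultiples (t : (P.freyCurve⁄Qb).Point) →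
        x ∈ N := by
    intro x hx
    obtain ⟨j, hj⟩ := AddSubgroup.mem_zmultiples_iff.mp hx
    have : x = j • t := Subtype.ext (by rw [← hj]; rfl)
    rw [this]
    exact N.toAddSubgroup.zsmul_mem htN j
  -- the Velu data
  have hΔ : P.freyCurve.Δ ≠ 0 := Fermat.Agent.S13.Supersingular.freyCurve_Δ_ne_zero P
  obtain ⟨hD0, hDQ⟩ := Fermat.Agent.S12P.VeluQ51.velu_Q_delta P.freyCurve hΔ P.pp hpm
    (t : (P.freyCurve⁄Qb).Point) hord
  obtain ⟨k, W', hW'⟩ := Fermat.Agent.S12P.KAsm28.frey_exists_scaledModel P htp ht0 hstab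
  have hΔ' : W'.Δ ≠ 0 := hW'.Δ_ne_zero (Fermat.Agent.S12P.KAsm28.p_pow_ne_zero P k) hD0
  have hpt : ∀ R : (P.freyCurve⁄Qb).Point, P.p • R = 0 →
      R ∉ AddSubgroup.zmultiples (t : (P.freyCurve⁄Qb).Point) →
      ∃ hns : ((W'.map (Int.castRingHom ℚ))⁄Qb).Nonsingular
          ((((P.p : ℕ) : Qb) ^ k) ^ 2 * veluX (P.freyCurve⁄Qb) (t : (P.freyCurve⁄Qb).Point) P.p R)
          ((((P.p : ℕ) : Qb) ^ k) ^ 3 * veluY (P.freyCurve⁄Qb) (t : (P.freyCurve⁄Qb).Point) P.p R),
        addOrderOf (Point.some _ _ hns) = P.p ∧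
          ∀ σ : Qb ≃ₐ[ℚ] Qb, σ • Point.some _ _ hns = Point.some _ _ hns := by
    intro R hR hRt
    obtain ⟨hns, ho⟩ := hpts (t : (P.freyCurve⁄Qb).Point) R hord hR hRt
    have hcofR : ∀ σ : Qb ≃ₐ[ℚ] Qb,
        σ • R - R ∈ AddSubgroup.zmultiples (t : (P.freyCurve⁄Qb).Point) := by
      intro σ
      have hRmem : R ∈ Submodule.torsionBy ℤ (P.freyCurve⁄Qb).Point P.p := by
        rw [Submodule.mem_torsionBy_iff]
        rw [← hR]
        exact natCast_zsmul R P.p
      exact hNt _ (hcof σ ⟨R, hRmem⟩)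
    exact frey_image_point P htp ht0 hstab hW' hcofR hns ho
  have hex : ∃ R : (P.freyCurve⁄Qb).Point, P.p • R = 0 ∧
      R ∉ AddSubgroup.zmultiples (t : (P.freyCurve⁄Qb).Point) := by
    obtain ⟨x, -, hx⟩ := SetLike.exists_of_lt (lt_top_iff_ne_top.mpr htop)
    exact ⟨x, Fermat.Agent.S12P.Rat68.nsmul_coe_eq_zero x, fun h => hx (htN' x h)⟩
  -- the generator is toric
  have htoric : ∀ {ℓ : ℕ}, ℓ.Prime → ℓ ≠ P.p → ∀ A : ValuationSubring Qb, A.LiesOverPrime ℓ →
      InZero P.freyCurveInt A (t : (P.freyCurve⁄Qb).Point) := by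
    intro ℓ hℓ hne A hA
    exact Fermat.Agent.S12P.Toric44.toric_of_S15 hS15 P hp17 htp ht0 hDQ hΔ'
      hW'.h₁ hW'.h₂ hW'.h₃ hW'.h₄ hW'.h₆ hpt hex hℓ hne A hA
  -- every point of the line is toric
  intro ℓ hℓ hne A hA s hs
  obtain ⟨j, hj⟩ := hmult s hs
  rw [hj]
  by_cases hpj : P.p ∣ j
  · obtain ⟨c, rfl⟩ := hpj
    rw [mul_nsmul, htp, nsmul_zero]
    exact Fermat.Agent.MAZ.Loc44.inZero_zero P.freyCurveInt
  · exact (Fermat.Agent.S12P.LocUnit28.frey_inZero_nsmul_iff P hℓ hne hA htp ht0 hpj).mpr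
      (htoric hℓ hne A hA)

/-- **S15 ⟹ S12**, with the Velu point statement as a hypothesis. -/
theorem not_cofixed_of_S15 (hS15 : S15Statement) (hpts : VeluPoints P) (hp17 : 17 ≤ P.p) :
    ¬ HasGaloisStableCofixedLine (K := Qb) ℚ P.freyCurve P.p := by
  intro h
  obtain ⟨N, t, hstab, hbot, htop, -, htN, -, ht0, htp, hord, hσ, hmult, hcof⟩ :=
    Fermat.Agent.S12P.Rat68.frey_exists_generator P h
  exact Fermat.Agent.S12P.KAsm28.false_of_toricLine P N hstab hbot htop hcof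
    (toricLine_of_S15 P hS15 hpts hp17 N htop t htN ht0 htp hord hσ hmult hcof)

/-- The Velu point statement holds (`VeluQ51.velu_Q_points`). -/
theorem veluPoints : VeluPoints P := fun Q R hQ hR hRQ =>
  Fermat.Agent.S12P.VeluQ51.velu_Q_points P.freyCurve
    (Fermat.Agent.S13.Supersingular.freyCurve_Δ_ne_zero P) P.pp Q hQ R hR hRQ

/-- **S15 ⟹ S12.**  `S12.lean` is `s12_of_s15 @Fermat.Agent.S15.result P hp`. -/
theorem s12_of_s15 (hS15 : S15Statement) (hp17 : 17 ≤ P.p) :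
    ¬ HasGaloisStableCofixedLine (K := Qb) ℚ P.freyCurve P.p :=
  not_cofixed_of_S15 P hS15 (veluPoints P) hp17

end Fermat.Agent.S12P.Top51
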